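/-
S12, step 3: arithmetic of rational numbers against valuation subrings of `Qb`
(the "product formula" part) and the final numerics.
-/
import Fermat.Agent.S05.Frey
import Fermat.Agent.S13.Defs

set_option autoImplicit false

namespace Fermat.Agent.S12.AtP

open Fermat.Agent.S05 Fermat.Agent.S13

section val

variable (A : ValuationSubring Qb) {p : ℕ} (hp : p.Prime) (hA : A.LiesOverPrime p)

include hp hA

lemma val_p_lt_one : A.valuation (algebraMap ℚ Qb ((p : ℤ) : ℚ)) < 1 :=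
  (val_algebraMap_int A hp hA _).2.mpr dvd_rfl

omit hA in
lemma val_p_ne_zero : A.valuation (algebraMap ℚ Qb ((p : ℤ) : ℚ)) ≠ 0 := by
  rw [Valuation.ne_zero_iff]
  simp [hp.ne_zero]

/-- the valuation of a nonzero integer is a power of the valuation of `p` -/
theorem val_int_eq_pow {n : ℤ} (hn : n ≠ 0) :
    ∃ t : ℕ, A.valuation (algebraMap ℚ Qb (n : ℚ)) =
      A.valuation (algebraMap ℚ Qb ((p : ℤ) : ℚ)) ^ t ∧ (p : ℤ) ^ t ∣ n := by
  have hfin : FiniteMultiplicity (p : ℤ) n := by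
    rw [Int.finiteMultiplicity_iff]
    exact ⟨by simpa using hp.ne_one, hn⟩
  obtain ⟨c, hc, hnd⟩ := hfin.exists_eq_pow_mul_and_not_dvd
  refine ⟨multiplicity (p : ℤ) n, ?_, ⟨c, hc⟩⟩
  conv_lhs => rw [hc]
  rw [Int.cast_mul, Int.cast_pow, map_mul, map_pow, map_mul, map_pow,
    val_algebraMap_int_eq_one A hp hA hnd, mul_one]

omit hp hA in
lemma val_rat_eq (q : ℚ) : algebraMap ℚ Qb q =
    algebraMap ℚ Qb ((q.num : ℚ) / ((q.den : ℤ) : ℚ)) := by
  congr 1
  rw [Int.cast_natCast, Rat.num_div_den]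

/-- if `|q|_A ≥ 1` then `p` does not divide the numerator of `q` -/
theorem not_dvd_num_of_one_le {q : ℚ} (h : 1 ≤ A.valuation (algebraMap ℚ Qb q)) :
    ¬ p ∣ q.num.natAbs := by
  intro hd
  have hden : ¬ (p : ℤ) ∣ (q.den : ℤ) := by
    intro h2
    have h3 : p ∣ q.den := by exact_mod_cast h2
    have := Nat.dvd_gcd hd h3
    rw [q.reduced] at this
    exact hp.one_lt.ne' (Nat.dvd_one.mp this)
  rw [val_rat_eq, val_algebraMap_div A hp hA hden] at h
  exact absurd ((val_algebraMap_int A hp hA _).2.mpr (Int.natCast_dvd.mpr hd)) (not_lt.mpr h)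

end val

/-- **Product formula** (the half we need).  If `|q|_ℓ ≥ 1` for all primes `ℓ ≠ p` then
`|q|_∞ ≤ p ^ a` and either `a = 0` or `|q|_A = |p|_A ^ a` for `A ∣ p`. -/
theorem exists_pow_bound {p : ℕ} (hp : p.Prime) {q : ℚ} (hq0 : q ≠ 0)
    (hl : ∀ l : ℕ, l.Prime → l ≠ p →
      ∃ A : ValuationSubring Qb, A.LiesOverPrime l ∧ 1 ≤ A.valuation (algebraMap ℚ Qb q))
    (A : ValuationSubring Qb) (hA : A.LiesOverPrime p) :
    ∃ a : ℕ, |q| ≤ (p : ℚ) ^ a ∧ (a = 0 ∨ A.valuation (algebraMap ℚ Qb q) =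
      A.valuation (algebraMap ℚ Qb ((p : ℤ) : ℚ)) ^ a) := by
  have hnum0 : q.num.natAbs ≠ 0 := by
    rw [Int.natAbs_ne_zero]; exact Rat.num_ne_zero.mpr hq0
  have huniq : ∀ {d : ℕ}, d.Prime → d ∣ q.num.natAbs → d = p := by
    intro d hd hdvd
    by_contra hne
    obtain ⟨B, hB, h1⟩ := hl d hd hne
    exact not_dvd_num_of_one_le B hd hB h1 hdvd
  have hpow := Nat.eq_prime_pow_of_unique_prime_dvd hnum0 huniq
  set a := q.num.natAbs.primeFactorsList.length with ha
  refine ⟨a, ?_, ?_⟩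
  · have h1 : |q| = (q.num.natAbs : ℚ) / (q.den : ℚ) := by
      conv_lhs => rw [← Rat.num_div_den q]
      rw [abs_div, Nat.abs_cast, Nat.cast_natAbs, Int.cast_abs]
    rw [h1, hpow, Nat.cast_pow]
    apply div_le_self (by positivity)
    exact_mod_cast q.den_pos
  · by_cases ha0 : a = 0
    · exact Or.inl ha0
    right
    have hd : p ∣ q.num.natAbs := by rw [hpow]; exact dvd_pow_self p ha0
    have hden : ¬ (p : ℤ) ∣ (q.den : ℤ) := by
      intro h2
      have h3 : p ∣ q.den := by exact_mod_cast h2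
      have := Nat.dvd_gcd hd h3
      rw [q.reduced] at this
      exact hp.one_lt.ne' (Nat.dvd_one.mp this)
    rw [val_rat_eq, val_algebraMap_div A hp hA hden]
    have h2 : q.num = (p : ℤ) ^ a ∨ q.num = -(p : ℤ) ^ a := by
      have : (q.num.natAbs : ℤ) = (p : ℤ) ^ a := by rw [hpow]; push_cast; rfl
      rcases Int.natAbs_eq q.num with h | h
      · left; rw [h, this]
      · right; rw [h, this]
    rcases h2 with h | h
    · rw [h, Int.cast_pow, map_pow, map_pow]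
    · rw [h, Int.cast_neg, map_neg, Valuation.map_neg, Int.cast_pow, map_pow, map_pow]

/-- exponents: `π ^ m ≤ π ^ n`, `0 < π < 1` gives `n ≤ m` -/
lemma le_of_pow_le_pow_of_lt_one {Γ₀ : Type*} [LinearOrderedCommGroupWithZero Γ₀] {π : Γ₀}
    (h0 : π ≠ 0) (h1 : π < 1) {m n : ℕ} (h : π ^ m ≤ π ^ n) : n ≤ m := by
  by_contra hlt
  rw [not_le] at hlt
  exact absurd h (not_le.mpr (pow_lt_pow_right_of_lt_one₀ (zero_lt_iff.mpr h0) h1 hlt))

/-- final numerics -/
theorem numerics {z x : ℚ} {n : ℕ} (hz : 64 ≤ z)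
    (h1 : (z / 4) ^ n < x) (h2 : x ^ 3 ≤ z ^ (2 * n)) : False := by
  have hz0 : 0 < z := by linarith
  have h3 : ((z / 4) ^ n) ^ 3 < x ^ 3 := pow_lt_pow_left₀ h1 (by positivity) (by norm_num)
  have h4 : ((z / 4) ^ 3) ^ n < (z ^ 2) ^ n := by
    rw [← pow_mul, mul_comm 3 n, pow_mul, ← pow_mul z 2 n]
    exact lt_of_lt_of_le h3 h2
  have h5 : (z / 4) ^ 3 < z ^ 2 := lt_of_pow_lt_pow_left₀ n (by positivity) h4
  have h6 : z ^ 2 * (z - 64) < 0 := by nlinarith
  have h7 : 0 ≤ z ^ 2 * (z - 64) := mul_nonneg (by positivity) (by linarith)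
  linarith

end Fermat.Agent.S12.AtP
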