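/-
S12, step 3 (place above `p`, but valid for every valuation): the "tent" inequality
`|κ|² ≤ |ξ(2T)| |ξ(T)|²` for torsion points `T` of odd order, `ξ = x - e`, `(e, κ, β)` a centre.
-/
import Fermat.Agent.S13.LocE1
import Fermat.Agent.S13.LocE0

set_option autoImplicit false

namespace Fermat.Agent.S12.AtP

open WeierstrassCurve WeierstrassCurve.Affine Fermat.Agent.S05 Fermat.Agent.S13.Loc

variable {K : Type*} [Field K] [DecidableEq K] {W : Affine K} {e κ β : K}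
variable {Γ₀ : Type*} [LinearOrderedCommGroupWithZero Γ₀] (v : Valuation K Γ₀)

omit [DecidableEq K] in
lemma v_four_le : v (4 : K) ≤ 1 := by simpa using v_natCast_le_one v 4

/-- `ξ(T) ≠ 0` if `2T ≠ 0`. -/
lemma xi_ne_zero (hc : Centre W e κ β) {T : W.Point} (hT0 : T ≠ 0) (h2T : T + T ≠ 0) :
    xc T - e ≠ 0 := by
  intro h
  apply h2T
  apply add_self_eq_zero_of_yc
  have := yc_sq T hT0
  rw [hc.D2_id, h, zero_mul] at this
  exact pow_eq_zero_iff (two_ne_zero) |>.mp this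

/-- `|κ| ≤ |ξ(T)|` for every nonzero torsion point of odd order.
MATH. `r = |ξ(T)| < k = |κ| ≤ 1`: `|ξ² - κ| = k`, `|4ξ²+βξ+4κ| ≤ k`, so by duplication
`|ξ(2T)| ≥ k²/(r k) > 1`, so `2T ∈ E1`, `T ∈ E1`, `r > 1`: contradiction. -/
theorem kappa_le (hb₂ : v W.b₂ ≤ 1) (hb₄ : v W.b₄ ≤ 1) (hb₆ : v W.b₆ ≤ 1) (hb₈ : v W.b₈ ≤ 1)
    (hc : Centre W e κ β) (he : v e ≤ 1) (hκ : v κ ≤ 1) (hβ : v β ≤ 1)
    {n : ℕ} (hn : Odd n) {T : W.Point} (hT : n • T = 0) (hT0 : T ≠ 0) :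
    v κ ≤ v (xc T - e) := by
  by_contra hlt
  rw [not_le] at hlt
  have h2T := add_self_ne_zero_of_tors hn hT hT0
  have h4 := v_four_le v
  have hd := hc.xi_dbl h2T
  have hs0 := xi_ne_zero hc hT0 h2T
  set s := xc T - e with hs
  have hvs : 0 < v s := zero_lt_iff.mpr ((v.ne_zero_iff).mpr hs0)
  have hvκ : 0 < v κ := lt_trans hvs hlt
  have hs1 : v s < 1 := lt_of_lt_of_le hlt hκ
  have hss : v (s ^ 2) < v κ := by
    rw [map_pow, sq]
    calc v s * v s < 1 * v s := mul_lt_mul_of_pos_right hs1 hvs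
      _ = v s := one_mul _
      _ < v κ := hlt
  have h1 : v (s ^ 2 - κ) = v κ := v.map_sub_eq_of_lt_right hss
  have h3 : v (4 * s ^ 2 + β * s + 4 * κ) ≤ v κ := by
    refine v.map_add_le (v.map_add_le ?_ ?_) ?_
    · rw [map_mul]; exact (mul_le_of_le_one_left' h4).trans hss.le
    · rw [map_mul]; exact (mul_le_of_le_one_left' hβ).trans hlt.le
    · rw [map_mul]; exact mul_le_of_le_one_left' h4
  have hL := congrArg v hd
  rw [map_mul, map_mul, map_pow, h1] at hL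
  -- `1 < |ξ(2T)|`
  have hbig : 1 < v (xc (T + T) - e) := by
    by_contra hle
    rw [not_lt] at hle
    have : v (xc (T + T) - e) * (v s * v (4 * s ^ 2 + β * s + 4 * κ)) < v κ ^ 2 := by
      calc _ ≤ 1 * (v s * v κ) := mul_le_mul' hle (mul_le_mul' le_rfl h3)
        _ = v s * v κ := one_mul _
        _ < v κ * v κ := mul_lt_mul_of_pos_right hlt hvκ
        _ = v κ ^ 2 := (sq _).symm
    rw [hL] at this
    exact lt_irrefl _ this
  have hx2 : 1 < v (xc (T + T)) := by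
    have e1 : xc (T + T) = (xc (T + T) - e) + e := by ring
    rw [e1, v.map_add_eq_of_lt_left (lt_of_le_of_lt he hbig)]
    exact hbig
  have hE1 : InE1 v T := inE1_of_two_nsmul v hb₂ hb₄ hb₆ hb₈ hn hT (Or.inr hx2)
  rcases hE1 with h | h
  · exact hT0 h
  · have : v s = v (xc T) := v.map_sub_eq_of_lt_left (lt_of_le_of_lt he h)
    rw [this] at hs1
    exact lt_irrefl _ (lt_trans h hs1)

/-- **The tent inequality** `|κ|² ≤ |ξ(2T)| |ξ(T)|²`.
MATH. `r = |ξ(T)|, r' = |ξ(2T)|, k = |κ| ≤ r` (`kappa_le`), `r' r |D| = |ξ²-κ|²`,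
`D = 4ξ²+βξ+4κ`.  `r² = k`: `r' ≥ k` by `kappa_le` for `2T`.  `r ≤ 1, r² ≠ k`: `|D| ≤ r`,
`|ξ²-κ| ≥ k`.  `r > 1`: `|D| ≤ r²`, `|ξ²-κ| = r²`, so `r' ≥ r`. -/
theorem tent (hb₂ : v W.b₂ ≤ 1) (hb₄ : v W.b₄ ≤ 1) (hb₆ : v W.b₆ ≤ 1) (hb₈ : v W.b₈ ≤ 1)
    (hc : Centre W e κ β) (he : v e ≤ 1) (hκ : v κ ≤ 1) (hβ : v β ≤ 1)
    {n : ℕ} (hn : Odd n) {T : W.Point} (hT : n • T = 0) (hT0 : T ≠ 0) :
    v κ ^ 2 ≤ v (xc (T + T) - e) * v (xc T - e) ^ 2 := by
  have h2T := add_self_ne_zero_of_tors hn hT hT0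
  have hT2 : n • (T + T) = 0 := by rw [smul_add, hT, add_zero]
  have hk1 := kappa_le v hb₂ hb₄ hb₆ hb₈ hc he hκ hβ hn hT hT0
  have hk2 := kappa_le v hb₂ hb₄ hb₆ hb₈ hc he hκ hβ hn hT2 h2T
  have h4 := v_four_le v
  have hd := hc.xi_dbl h2T
  have hs0 := xi_ne_zero hc hT0 h2T
  set s := xc T - e with hs
  set s' := xc (T + T) - e with hs'
  have hvs : 0 < v s := zero_lt_iff.mpr ((v.ne_zero_iff).mpr hs0)
  have hL := congrArg v hd
  rw [map_mul, map_mul, map_pow] at hL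
  by_cases hB : v s ^ 2 = v κ
  · rw [hB, sq]
    exact mul_le_mul' hk2 le_rfl
  by_cases hr : v s ≤ 1
  · have h3 : v (4 * s ^ 2 + β * s + 4 * κ) ≤ v s := by
      refine v.map_add_le (v.map_add_le ?_ ?_) ?_
      · rw [map_mul, map_pow, sq]
        exact (mul_le_of_le_one_left' h4).trans (mul_le_of_le_one_left' hr)
      · rw [map_mul]; exact mul_le_of_le_one_left' hβ
      · rw [map_mul]; exact (mul_le_of_le_one_left' h4).trans hk1
    have h1 : v κ ≤ v (s ^ 2 - κ) := by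
      rcases lt_or_gt_of_ne hB with h | h
      · rw [v.map_sub_eq_of_lt_right (by rwa [map_pow])]
      · rw [v.map_sub_eq_of_lt_left (by rwa [map_pow]), map_pow]; exact h.le
    calc v κ ^ 2 ≤ v (s ^ 2 - κ) ^ 2 := pow_le_pow_left₀ zero_le h1 2
      _ = v s' * (v s * v (4 * s ^ 2 + β * s + 4 * κ)) := hL.symm
      _ ≤ v s' * (v s * v s) := mul_le_mul' le_rfl (mul_le_mul' le_rfl h3)
      _ = v s' * v s ^ 2 := by rw [sq]
  · rw [not_le] at hr
    have hss : 1 < v s ^ 2 := one_lt_pow₀ hr two_ne_zero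
    have h3 : v (4 * s ^ 2 + β * s + 4 * κ) ≤ v s ^ 2 := by
      refine v.map_add_le (v.map_add_le ?_ ?_) ?_
      · rw [map_mul, map_pow]; exact mul_le_of_le_one_left' h4
      · rw [map_mul, sq]; exact mul_le_mul' (hβ.trans hr.le) le_rfl
      · rw [map_mul]; exact (mul_le_one' h4 hκ).trans hss.le
    have h1 : v (s ^ 2 - κ) = v s ^ 2 := by
      rw [← map_pow]; apply v.map_sub_eq_of_lt_left; rw [map_pow]; exact lt_of_le_of_lt hκ hss
    rw [h1] at hL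
    -- `r ≤ r'`
    have hrr : v s ≤ v s' := by
      have hpos : 0 < v s * v s ^ 2 := mul_pos hvs (pow_pos hvs 2)
      have : v s * (v s * v s ^ 2) ≤ v s' * (v s * v s ^ 2) := by
        calc v s * (v s * v s ^ 2) = (v s ^ 2) ^ 2 := by
              rw [← pow_succ', ← pow_succ', ← pow_mul]
          _ = v s' * (v s * v (4 * s ^ 2 + β * s + 4 * κ)) := hL.symm
          _ ≤ v s' * (v s * v s ^ 2) := mul_le_mul' le_rfl (mul_le_mul' le_rfl h3)
      exact le_of_mul_le_mul_right this hpos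
    calc v κ ^ 2 ≤ 1 := pow_le_one₀ zero_le hκ
      _ ≤ v s' * v s ^ 2 := one_le_mul (hr.le.trans hrr) hss.le

end Fermat.Agent.S12.AtP
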