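/-
S12, step 3: the product of the tent inequality over the nonzero multiples of a point of prime order.
-/
import Fermat.Agent.S12.AtP.Tent

set_option autoImplicit false

namespace Fermat.Agent.S12.AtP

open WeierstrassCurve WeierstrassCurve.Affine Fermat.Agent.S05 Fermat.Agent.S13.Loc

/-- multiplication by `m` (prime to `p`) permutes `{1, …, p-1}` modulo `p` -/
lemma image_mul_mod {p m : ℕ} (hp : p.Prime) (hm : ¬ p ∣ m) :
    (Finset.Ico 1 p).image (fun k => (k * m) % p) = Finset.Ico 1 p := by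
  have hcop : Nat.Coprime p m := (Nat.Prime.coprime_iff_not_dvd hp).mpr hm
  apply Finset.eq_of_subset_of_card_le
  · intro j hj
    obtain ⟨k, hk, rfl⟩ := Finset.mem_image.mp hj
    rw [Finset.mem_Ico] at hk ⊢
    refine ⟨?_, Nat.mod_lt _ hp.pos⟩
    rw [Nat.one_le_iff_ne_zero]
    intro h
    rcases (hp.dvd_mul).mp (Nat.dvd_of_mod_eq_zero h) with h | h
    · exact absurd (Nat.le_of_dvd (by omega) h) (by omega)
    · exact hm h
  · rw [Finset.card_image_of_injOn]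
    intro k hk k' hk' h
    rw [Finset.coe_Ico, Set.mem_Ico] at hk hk'
    have h1 : k * m ≡ k' * m [MOD p] := h
    have h2 : k ≡ k' [MOD p] := Nat.ModEq.cancel_right_of_coprime hcop h1
    exact Nat.ModEq.eq_of_lt_of_lt h2 hk.2 hk'.2

lemma injOn_mul_mod {p m : ℕ} (hp : p.Prime) (hm : ¬ p ∣ m) :
    Set.InjOn (fun k => (k * m) % p) (Finset.Ico 1 p : Finset ℕ) := by
  have hcop : Nat.Coprime p m := (Nat.Prime.coprime_iff_not_dvd hp).mpr hm
  intro k hk k' hk' h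
  rw [Finset.coe_Ico, Set.mem_Ico] at hk hk'
  have h1 : k * m ≡ k' * m [MOD p] := h
  have h2 : k ≡ k' [MOD p] := Nat.ModEq.cancel_right_of_coprime hcop h1
  exact Nat.ModEq.eq_of_lt_of_lt h2 hk.2 hk'.2

/-- `T ↦ m T` permutes the nonzero multiples of a point of prime order `p ∤ m`. -/
theorem prod_perm {G M : Type*} [AddCommGroup G] [CommMonoid M] {p m : ℕ} (hp : p.Prime)
    (hm : ¬ p ∣ m) {T : G} (hT : p • T = 0) (f : G → M) :
    ∏ k ∈ Finset.Ico 1 p, f ((k * m) • T) = ∏ k ∈ Finset.Ico 1 p, f (k • T) := by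
  have h1 : ∀ k : ℕ, (k * m) • T = ((k * m) % p) • T := by
    intro k
    conv_lhs => rw [← Nat.div_add_mod (k * m) p, add_smul, mul_smul, smul_comm, hT, smul_zero,
      zero_add]
  conv_rhs => rw [← image_mul_mod hp hm]
  rw [Finset.prod_image (injOn_mul_mod hp hm)]
  exact Finset.prod_congr rfl (fun k _ => by rw [h1 k])

variable {K : Type*} [Field K] [DecidableEq K] {W : Affine K} {e κ β : K}
variable {Γ₀ : Type*} [LinearOrderedCommGroupWithZero Γ₀] (v : Valuation K Γ₀)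

/-- `Π_e = ∏_{0 < k < p} (x(k T₀) - e)` -/
noncomputable def PiE (p : ℕ) (T0 : W.Point) (e : K) : K :=
  ∏ k ∈ Finset.Ico 1 p, (xc (k • T0) - e)

lemma nsmul_ne_zero_of_Ico {p : ℕ} (hp : p.Prime) {T0 : W.Point} (hT : p • T0 = 0) (h0 : T0 ≠ 0)
    {k : ℕ} (hk : k ∈ Finset.Ico 1 p) : k • T0 ≠ 0 := by
  rw [Finset.mem_Ico] at hk
  intro h
  apply h0
  have hcop : Nat.Coprime k p :=
    ((Nat.Prime.coprime_iff_not_dvd hp).mpr
      (fun hd => absurd (Nat.le_of_dvd (by omega) hd) (by omega))).symm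
  obtain ⟨a, -, ha⟩ := Nat.exists_mul_mod_eq_one_of_coprime hcop hp.one_lt
  have e1 : T0 = a • (k • T0) := by
    rw [← mul_smul, mul_comm a k]
    conv_rhs => rw [← Nat.div_add_mod (k * a) p, ha, add_smul, mul_smul, one_smul]
    rw [smul_comm, hT, smul_zero, zero_add]
  rw [e1, h, smul_zero]

theorem PiE_dbl {p : ℕ} (hp : p.Prime) (hp2 : p ≠ 2) {T0 : W.Point} (hT : p • T0 = 0) (e : K) :
    ∏ k ∈ Finset.Ico 1 p, (xc (k • T0 + k • T0) - e) = PiE p T0 e := by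
  have hm : ¬ p ∣ 2 := fun h => hp2 ((Nat.prime_dvd_prime_iff_eq hp Nat.prime_two).mp h)
  rw [PiE, ← prod_perm hp hm hT (fun T => xc T - e)]
  exact Finset.prod_congr rfl (fun k _ => by rw [mul_smul, smul_comm, two_smul])

/-- **Step 3**: `|κ|^(2(p-1)) ≤ |Π_e|³`. -/
theorem tent_prod (hb₂ : v W.b₂ ≤ 1) (hb₄ : v W.b₄ ≤ 1) (hb₆ : v W.b₆ ≤ 1) (hb₈ : v W.b₈ ≤ 1)
    (hc : Centre W e κ β) (he : v e ≤ 1) (hκ : v κ ≤ 1) (hβ : v β ≤ 1)
    {p : ℕ} (hp : p.Prime) (hp2 : p ≠ 2) {T0 : W.Point} (hT : p • T0 = 0) (h0 : T0 ≠ 0) :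
    v κ ^ (2 * (p - 1)) ≤ v (PiE p T0 e) ^ 3 := by
  have hodd : Odd p := hp.odd_of_ne_two hp2
  have h1 : ∏ _k ∈ Finset.Ico 1 p, v κ ^ 2 ≤
      ∏ k ∈ Finset.Ico 1 p, v (xc (k • T0 + k • T0) - e) * v (xc (k • T0) - e) ^ 2 := by
    apply Finset.prod_le_prod'
    intro k hk
    exact tent v hb₂ hb₄ hb₆ hb₈ hc he hκ hβ hodd (by rw [smul_comm, hT, smul_zero])
      (nsmul_ne_zero_of_Ico hp hT h0 hk)
  rw [Finset.prod_const, Nat.card_Ico, ← pow_mul, Finset.prod_mul_distrib, Finset.prod_pow,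
    ← map_prod, ← map_prod, PiE_dbl hp hp2 hT e] at h1
  rw [pow_succ' _ 2]
  exact h1

/-- lower bounds multiply -/
theorem one_le_PiE {p : ℕ} {T0 : W.Point} (h : ∀ k ∈ Finset.Ico 1 p, 1 ≤ v (xc (k • T0) - e)) :
    1 ≤ v (PiE p T0 e) := by
  rw [PiE, map_prod]
  exact Finset.one_le_prod' h

end Fermat.Agent.S12.AtP
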