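/-
S12, step 3 + final numerics.  `main` is what `S12/Top` consumes:
a rational `q = Π_e = ∏_{0<k<p} (x(k T₀) - e)` (`e` one of the three 2-torsion abscissas of the Frey
curve) with `|q|_ℓ ≥ 1` for all primes `ℓ ≠ p` cannot satisfy `(z/4)^(p-1) < |q|_∞`.
-/
import Fermat.Agent.S12.AtP.Prod
import Fermat.Agent.S12.AtP.Num
import Fermat.Agent.S13.LocFrey
import Fermat.Agent.S13.Minkowski

set_option autoImplicit false

namespace Fermat.Agent.S12.AtP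

open WeierstrassCurve WeierstrassCurve.Affine WeierstrassCurve.Affine.Point
open Fermat.Agent.S05 Fermat.Agent.S13 Fermat.Agent.S13.Loc
open FreyPackage

/-- centre at `e = 0` -/
theorem frey_centre0 (P : FreyPackage) :
    Centre (P.freyCurve⁄Qb) (algebraMap ℚ Qb 0)
      (algebraMap ℚ Qb (((-(P.a ^ P.p * P.b ^ P.p) : ℤ) : ℚ) / ((16 : ℤ) : ℚ)))
      (algebraMap ℚ Qb ((P.b ^ P.p - P.a ^ P.p : ℤ) : ℚ)) := by
  apply centre_map
  · simp only [FreyPackage.freyCurve, WeierstrassCurve.b₂]; push_cast; ring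
  · simp only [FreyPackage.freyCurve, WeierstrassCurve.b₄]; push_cast; ring
  · simp only [FreyPackage.freyCurve, WeierstrassCurve.b₂, WeierstrassCurve.b₄,
      WeierstrassCurve.b₆]; ring
  · simp only [FreyPackage.freyCurve, WeierstrassCurve.b₂, WeierstrassCurve.b₄,
      WeierstrassCurve.b₆, WeierstrassCurve.b₈]; push_cast; ring

/-- centre at `e = a^p / 4` -/
theorem frey_centreA (P : FreyPackage) :
    Centre (P.freyCurve⁄Qb) (algebraMap ℚ Qb (((P.a ^ P.p : ℤ) : ℚ) / ((4 : ℤ) : ℚ)))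
      (algebraMap ℚ Qb (((P.a ^ P.p * P.c ^ P.p : ℤ) : ℚ) / ((16 : ℤ) : ℚ)))
      (algebraMap ℚ Qb ((P.a ^ P.p + P.c ^ P.p : ℤ) : ℚ)) := by
  have hFLT : ((P.a : ℚ) ^ P.p + (P.b : ℚ) ^ P.p = (P.c : ℚ) ^ P.p) := by exact_mod_cast P.hFLT
  apply centre_map
  · simp only [FreyPackage.freyCurve, WeierstrassCurve.b₂]; push_cast
    linear_combination (-1 : ℚ) * hFLT
  · simp only [FreyPackage.freyCurve, WeierstrassCurve.b₂, WeierstrassCurve.b₄]; push_cast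
    linear_combination (-(P.a : ℚ) ^ P.p / 8) * hFLT
  · simp only [FreyPackage.freyCurve, WeierstrassCurve.b₂, WeierstrassCurve.b₄,
      WeierstrassCurve.b₆]; push_cast
    ring
  · simp only [FreyPackage.freyCurve, WeierstrassCurve.b₂, WeierstrassCurve.b₄,
      WeierstrassCurve.b₆, WeierstrassCurve.b₈]; push_cast
    rw [← hFLT]
    ring

/-- centre at `e = - b^p / 4` -/
theorem frey_centreB (P : FreyPackage) :
    Centre (P.freyCurve⁄Qb) (algebraMap ℚ Qb (((-(P.b ^ P.p) : ℤ) : ℚ) / ((4 : ℤ) : ℚ)))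
      (algebraMap ℚ Qb (((P.b ^ P.p * P.c ^ P.p : ℤ) : ℚ) / ((16 : ℤ) : ℚ)))
      (algebraMap ℚ Qb ((-(P.b ^ P.p + P.c ^ P.p) : ℤ) : ℚ)) := by
  have hFLT : ((P.a : ℚ) ^ P.p + (P.b : ℚ) ^ P.p = (P.c : ℚ) ^ P.p) := by exact_mod_cast P.hFLT
  apply centre_map
  · simp only [FreyPackage.freyCurve, WeierstrassCurve.b₂]; push_cast
    rw [← hFLT]; ring
  · simp only [FreyPackage.freyCurve, WeierstrassCurve.b₂, WeierstrassCurve.b₄]; push_cast
    rw [← hFLT]; ring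
  · simp only [FreyPackage.freyCurve, WeierstrassCurve.b₂, WeierstrassCurve.b₄,
      WeierstrassCurve.b₆]; push_cast
    ring
  · simp only [FreyPackage.freyCurve, WeierstrassCurve.b₂, WeierstrassCurve.b₄,
      WeierstrassCurve.b₆, WeierstrassCurve.b₈]; push_cast
    rw [← hFLT]
    ring

/-- **Step 3 in archimedean form.**  `κ = ± X Y / 16` with `p` not dividing both `X` and `Y`. -/
theorem core (P : FreyPackage) {T0 : (P.freyCurve⁄Qb).Point} (hT : P.p • T0 = 0) (h0 : T0 ≠ 0)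
    {e κ β : ℚ}
    (hc : Centre (P.freyCurve⁄Qb) (algebraMap ℚ Qb e) (algebraMap ℚ Qb κ) (algebraMap ℚ Qb β))
    (he : ∀ A : ValuationSubring Qb, A.LiesOverPrime P.p → A.valuation (algebraMap ℚ Qb e) ≤ 1)
    (hβ : ∀ A : ValuationSubring Qb, A.LiesOverPrime P.p → A.valuation (algebraMap ℚ Qb β) ≤ 1)
    {X Y : ℤ} (hX : X ≠ 0) (hY : Y ≠ 0) (hXY : ¬ ((P.p : ℤ) ∣ X ∧ (P.p : ℤ) ∣ Y))
    (hκ : ∀ A : ValuationSubring Qb, A.LiesOverPrime P.p →
      A.valuation (algebraMap ℚ Qb κ) = A.valuation (algebraMap ℚ Qb ((X * Y : ℤ) : ℚ)))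
    {z : ℚ} (hzX : |(X : ℚ)| ≤ z) (hzY : |(Y : ℚ)| ≤ z)
    {q : ℚ} (hq : ∏ k ∈ Finset.Ico 1 P.p, (xc (k • T0) - algebraMap ℚ Qb e) = algebraMap ℚ Qb q)
    (hl : ∀ l : ℕ, l.Prime → l ≠ P.p →
      ∃ A : ValuationSubring Qb, A.LiesOverPrime l ∧ 1 ≤ A.valuation (algebraMap ℚ Qb q)) :
    |q| ^ 3 ≤ z ^ (2 * (P.p - 1)) := by
  have hpp := P.pp
  have hp2 : P.p ≠ 2 := by have := P.hp5; omega
  have hz1 : 1 ≤ z := by
    refine le_trans ?_ hzX
    have : (1 : ℤ) ≤ |X| := Int.one_le_abs hX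
    exact_mod_cast this
  by_cases hq0 : q = 0
  · rw [hq0, abs_zero, zero_pow (by norm_num)]; positivity
  obtain ⟨A, hA⟩ := exists_valuationSubring_liesOver P.p hpp
  obtain ⟨a, ha1, ha2⟩ := exists_pow_bound hpp hq0 hl A hA
  rcases ha2 with ha0 | ha2
  · rw [ha0, pow_zero] at ha1
    calc |q| ^ 3 ≤ 1 := pow_le_one₀ (abs_nonneg _) ha1
      _ ≤ z ^ (2 * (P.p - 1)) := one_le_pow₀ hz1
  obtain ⟨hb2, hb4, hb6, hb8⟩ := frey_integral_b P hpp A hA
  obtain ⟨t, ht1, ht2⟩ := val_int_eq_pow A hpp hA (mul_ne_zero hX hY)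
  have hκ1 : A.valuation (algebraMap ℚ Qb κ) ≤ 1 := by
    rw [hκ A hA]; exact (val_algebraMap_int A hpp hA _).1
  have key := tent_prod A.valuation hb2 hb4 hb6 hb8 hc (he A hA) hκ1 (hβ A hA) hpp hp2 hT h0
  rw [PiE, hq, ha2, hκ A hA, ht1, ← pow_mul, ← pow_mul] at key
  have hexp : a * 3 ≤ t * (2 * (P.p - 1)) :=
    le_of_pow_le_pow_of_lt_one (val_p_ne_zero A hpp) (val_p_lt_one A hpp hA) key
  -- `p ^ t ≤ z`
  have hpt : ((P.p : ℚ)) ^ t ≤ z := by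
    have hprime : Prime (P.p : ℤ) := Nat.prime_iff_prime_int.mp hpp
    have hdv : (P.p : ℤ) ^ t ∣ X ∨ (P.p : ℤ) ^ t ∣ Y := by
      by_cases hpX : (P.p : ℤ) ∣ X
      · have hpY : ¬ (P.p : ℤ) ∣ Y := fun h => hXY ⟨hpX, h⟩
        left
        exact (hprime.pow_dvd_of_dvd_mul_right t hpY ht2)
      · right
        exact (hprime.pow_dvd_of_dvd_mul_left t hpX ht2)
    rcases hdv with h | h
    · refine le_trans ?_ hzX
      have := Int.le_of_dvd (abs_pos.mpr hX) ((dvd_abs _ _).mpr h)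
      exact_mod_cast this
    · refine le_trans ?_ hzY
      have := Int.le_of_dvd (abs_pos.mpr hY) ((dvd_abs _ _).mpr h)
      exact_mod_cast this
  have hp1 : (1 : ℚ) ≤ (P.p : ℚ) := by exact_mod_cast hpp.one_lt.le
  calc |q| ^ 3 ≤ ((P.p : ℚ) ^ a) ^ 3 := pow_le_pow_left₀ (abs_nonneg _) ha1 3
    _ = (P.p : ℚ) ^ (a * 3) := (pow_mul _ _ _).symm
    _ ≤ (P.p : ℚ) ^ (t * (2 * (P.p - 1))) := pow_le_pow_right₀ hp1 hexp
    _ = ((P.p : ℚ) ^ t) ^ (2 * (P.p - 1)) := pow_mul _ _ _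
    _ ≤ z ^ (2 * (P.p - 1)) := pow_le_pow_left₀ (by positivity) hpt _

/-- `p` does not divide two of `a^p, b^p, c^p` -/
lemma not_dvd_both {p : ℕ} (hp : p.Prime) {x y : ℤ} (h : gcd x y = 1) (n : ℕ) :
    ¬ ((p : ℤ) ∣ x ^ n ∧ (p : ℤ) ∣ y ^ n) := by
  rintro ⟨h1, h2⟩
  have hprime : Prime (p : ℤ) := Nat.prime_iff_prime_int.mp hp
  have h3 := dvd_gcd (hprime.dvd_of_dvd_pow h1) (hprime.dvd_of_dvd_pow h2)
  rw [h] at h3
  exact hprime.not_isUnit (isUnit_of_dvd_one h3)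

/-- **Main theorem of step 3** (with the final numerics). -/
theorem main (P : FreyPackage) (hp : 7 ≤ P.p) {T0 : (P.freyCurve⁄Qb).Point}
    (hT : P.p • T0 = 0) (h0 : T0 ≠ 0) {e : ℚ}
    (he : e ∈ ({0, (P.a : ℚ) ^ P.p / 4, -(P.b : ℚ) ^ P.p / 4} : Set ℚ)) {q : ℚ}
    (hq : ∏ k ∈ Finset.Ico 1 P.p, (xc (k • T0) - algebraMap ℚ Qb e) = algebraMap ℚ Qb q)
    (hl : ∀ l : ℕ, l.Prime → l ≠ P.p →
      ∃ A : ValuationSubring Qb, A.LiesOverPrime l ∧ 1 ≤ A.valuation (algebraMap ℚ Qb q))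
    (hreal : (max (max |(P.a : ℚ) ^ P.p| |(P.b : ℚ) ^ P.p|) |(P.c : ℚ) ^ P.p| / 4) ^ (P.p - 1)
      < |q|) : False := by
  have hpp := P.pp
  set z : ℚ := max (max |(P.a : ℚ) ^ P.p| |(P.b : ℚ) ^ P.p|) |(P.c : ℚ) ^ P.p| with hz
  have hza : |((P.a ^ P.p : ℤ) : ℚ)| ≤ z := by
    push_cast; exact le_trans (le_max_left _ _) (le_max_left _ _)
  have hzb : |((P.b ^ P.p : ℤ) : ℚ)| ≤ z := by
    push_cast; exact le_trans (le_max_right _ _) (le_max_left _ _)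
  have hzc : |((P.c ^ P.p : ℤ) : ℚ)| ≤ z := by
    push_cast; exact le_max_right _ _
  have ha0 : P.a ^ P.p ≠ 0 := pow_ne_zero _ P.ha0
  have hb0 : P.b ^ P.p ≠ 0 := pow_ne_zero _ P.hb0
  have hc0 : P.c ^ P.p ≠ 0 := pow_ne_zero _ P.hc0
  -- `64 ≤ z`
  have hz64 : 64 ≤ z := by
    refine le_trans ?_ hzb
    have h2b : (2 : ℤ) ∣ P.b := (ZMod.intCast_zmod_eq_zero_iff_dvd P.b 2).1 P.hb2
    have h1 : (2 : ℤ) ≤ |P.b| := Int.le_of_dvd (abs_pos.mpr P.hb0) ((dvd_abs _ _).mpr h2b)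
    have h3 : (64 : ℤ) ≤ |P.b ^ P.p| := by
      rw [abs_pow]
      calc (64 : ℤ) = 2 ^ 6 := by norm_num
        _ ≤ 2 ^ P.p := pow_le_pow_right₀ (by norm_num) (by omega)
        _ ≤ |P.b| ^ P.p := pow_le_pow_left₀ (by norm_num) h1 _
    exact_mod_cast h3
  have hq_2 : ¬ (P.p : ℤ) ∣ 2 := by
    intro h
    have : P.p ∣ 2 := by exact_mod_cast h
    have := Nat.le_of_dvd (by norm_num) this
    omega
  have hprime : Prime (P.p : ℤ) := Nat.prime_iff_prime_int.mp hpp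
  have hq_4 : ¬ (P.p : ℤ) ∣ 4 := by
    intro h
    have : (P.p : ℤ) ∣ 2 * 2 := by norm_num; exact h
    rcases hprime.dvd_or_dvd this with h | h <;> exact hq_2 h
  have hq_16 : ¬ (P.p : ℤ) ∣ 16 := by
    intro h
    have : (P.p : ℤ) ∣ 4 * 4 := by norm_num; exact h
    rcases hprime.dvd_or_dvd this with h | h <;> exact hq_4 h
  have hbound : |q| ^ 3 ≤ z ^ (2 * (P.p - 1)) := by
    rcases he with rfl | rfl | rfl
    · refine core P hT h0 (frey_centre0 P) (fun A _ => by simp)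
        (fun A hA => (val_algebraMap_int A hpp hA _).1) ha0 hb0
        (not_dvd_both hpp P.hgcdab _) (fun A hA => ?_) hza hzb hq hl
      rw [val_algebraMap_div A hpp hA hq_16, Int.cast_neg, map_neg, Valuation.map_neg]
    · have e1 : (P.a : ℚ) ^ P.p / 4 = ((P.a ^ P.p : ℤ) : ℚ) / ((4 : ℤ) : ℚ) := by push_cast; ring
      rw [e1] at hq
      refine core P hT h0 (frey_centreA P)
        (fun A hA => by
          rw [val_algebraMap_div A hpp hA hq_4]; exact (val_algebraMap_int A hpp hA _).1)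
        (fun A hA => (val_algebraMap_int A hpp hA _).1) ha0 hc0
        (not_dvd_both hpp P.hgcdac _) (fun A hA => ?_) hza hzc hq hl
      rw [val_algebraMap_div A hpp hA hq_16]
    · have e1 : -(P.b : ℚ) ^ P.p / 4 = ((-(P.b ^ P.p) : ℤ) : ℚ) / ((4 : ℤ) : ℚ) := by
        push_cast; ring
      rw [e1] at hq
      refine core P hT h0 (frey_centreB P)
        (fun A hA => by
          rw [val_algebraMap_div A hpp hA hq_4]; exact (val_algebraMap_int A hpp hA _).1)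
        (fun A hA => (val_algebraMap_int A hpp hA _).1) hb0 hc0
        (not_dvd_both hpp P.hgcdbc _) (fun A hA => ?_) hzb hzc hq hl
      rw [val_algebraMap_div A hpp hA hq_16]
  exact numerics hz64 hreal hbound

end Fermat.Agent.S12.AtP
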