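/-
S12: (TORIC) ⟹ False.  Assembly of step 1 (`Real.frey_real`), step 3 (`AtP.main`) and of the easy half
of (KEY): at a prime `ℓ ≠ p`, `1 ≤ |x(T) - e|` for the centres `e` which are not the node (`kappa_le`).
-/
import Fermat.Agent.S12.AtP.Main
import Fermat.Agent.S12.Real.Frey

set_option autoImplicit false

namespace Fermat.Agent.S12.AtP

open WeierstrassCurve WeierstrassCurve.Affine WeierstrassCurve.Affine.Point
open Fermat.Agent.S05 Fermat.Agent.S13 Fermat.Agent.S13.Loc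
open FreyPackage

/-- `T` does not reduce to the node at `A` (formulated with all rational centres at the node). -/
def Toric (P : FreyPackage) (A : ValuationSubring Qb) (T : (P.freyCurve⁄Qb).Point) : Prop :=
  ∀ e κ β : ℚ,
    Centre (P.freyCurve⁄Qb) (algebraMap ℚ Qb e) (algebraMap ℚ Qb κ) (algebraMap ℚ Qb β) →
    A.valuation (algebraMap ℚ Qb e) ≤ 1 → A.valuation (algebraMap ℚ Qb κ) < 1 →
    A.valuation (algebraMap ℚ Qb β) = 1 → InE0 A.valuation (algebraMap ℚ Qb e) T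

/-- the local type of a centre at `A`: non-integral, or not the node, or the node (bad prime). -/
def Nice (A : ValuationSubring Qb) (bad : Prop) (e κ β : ℚ) : Prop :=
  1 < A.valuation (algebraMap ℚ Qb e) ∨
    (A.valuation (algebraMap ℚ Qb e) ≤ 1 ∧ A.valuation (algebraMap ℚ Qb β) ≤ 1 ∧
      (A.valuation (algebraMap ℚ Qb κ) = 1 ∨
        (A.valuation (algebraMap ℚ Qb κ) < 1 ∧ A.valuation (algebraMap ℚ Qb β) = 1 ∧ bad)))

/-- (KEY) at one point, one centre, one place `A ∣ ℓ ≠ p`. -/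
theorem one_le_xi (P : FreyPackage) {l : ℕ} (hl : l.Prime) (hlp : l ≠ P.p)
    (A : ValuationSubring Qb) (hA : A.LiesOverPrime l) {T : (P.freyCurve⁄Qb).Point}
    (hT : P.p • T = 0) (hT0 : T ≠ 0) {bad : Prop} (htor : bad → Toric P A T) {e κ β : ℚ}
    (hc : Centre (P.freyCurve⁄Qb) (algebraMap ℚ Qb e) (algebraMap ℚ Qb κ) (algebraMap ℚ Qb β))
    (hn : Nice A bad e κ β) : 1 ≤ A.valuation (xc T - algebraMap ℚ Qb e) := by
  obtain ⟨hb2, hb4, hb6, hb8⟩ := frey_integral_b P hl A hA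
  rcases hn with h | ⟨he, hβ, hκ | ⟨hκ, hβ1, hbad⟩⟩
  · have hpv : A.valuation ((P.p : ℕ) : Qb) = 1 := by
      have h1 : ¬ (l : ℤ) ∣ (P.p : ℤ) := by
        intro h
        have h2 : l ∣ P.p := by exact_mod_cast h
        exact hlp ((Nat.prime_dvd_prime_iff_eq hl P.pp).mp h2)
      have h3 := val_int A hl hA (P.p : ℤ)
      rw [Int.cast_natCast] at h3
      exact le_antisymm h3.1 (not_lt.mp (fun h => h1 (h3.2.mp h)))
    have hx : A.valuation (xc T) ≤ 1 := T1 A.valuation hb2 hb4 hb6 hb8 P.p hpv T hT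
    rw [A.valuation.map_sub_eq_of_lt_right (lt_of_le_of_lt hx h)]
    exact h.le
  · rw [← hκ]
    exact kappa_le A.valuation hb2 hb4 hb6 hb8 hc he hκ.le hβ P.hp_odd hT hT0
  · rcases htor hbad e κ β hc he hκ hβ1 with h | h
    · exact absurd h hT0
    · exact h

section nice

variable (A : ValuationSubring Qb) {l : ℕ} (hl : l.Prime) (hA : A.LiesOverPrime l)

include hl hA

/-- odd primes -/
lemma nice_odd (h2 : ¬ (l : ℤ) ∣ 2) {bad : Prop} {E Kp Bt : ℤ}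
    (h : (l : ℤ) ∣ Kp → ¬ (l : ℤ) ∣ Bt ∧ bad) :
    Nice A bad ((E : ℚ) / ((4 : ℤ) : ℚ)) ((Kp : ℚ) / ((16 : ℤ) : ℚ)) (Bt : ℚ) := by
  have hprime : Prime (l : ℤ) := Nat.prime_iff_prime_int.mp hl
  have hq_4 : ¬ (l : ℤ) ∣ 4 := by
    intro h
    have : (l : ℤ) ∣ 2 * 2 := by norm_num; exact h
    rcases hprime.dvd_or_dvd this with h | h <;> exact h2 h
  have hq_16 : ¬ (l : ℤ) ∣ 16 := by
    intro h
    have : (l : ℤ) ∣ 4 * 4 := by norm_num; exact h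
    rcases hprime.dvd_or_dvd this with h | h <;> exact hq_4 h
  right
  refine ⟨?_, (val_algebraMap_int A hl hA _).1, ?_⟩
  · rw [val_algebraMap_div A hl hA hq_4]; exact (val_algebraMap_int A hl hA _).1
  · rw [val_algebraMap_div A hl hA hq_16]
    by_cases hK : (l : ℤ) ∣ Kp
    · right
      exact ⟨(val_algebraMap_int A hl hA _).2.mpr hK,
        val_algebraMap_int_eq_one A hl hA (h hK).1, (h hK).2⟩
    · left
      exact val_algebraMap_int_eq_one A hl hA hK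

/-- integral data -/
lemma nice_int {bad : Prop} {E Kp Bt : ℤ} (hK : (l : ℤ) ∣ Kp) (hB : ¬ (l : ℤ) ∣ Bt) (hbad : bad) :
    Nice A bad (E : ℚ) (Kp : ℚ) (Bt : ℚ) := by
  right
  exact ⟨(val_algebraMap_int A hl hA _).1, (val_algebraMap_int A hl hA _).1, Or.inr
    ⟨(val_algebraMap_int A hl hA _).2.mpr hK, val_algebraMap_int_eq_one A hl hA hB, hbad⟩⟩

end nice

/-- arithmetic: `ℓ ∣ x^n y^n`, `gcd x y = 1` ⟹ `ℓ ∤ ± x^n ± y^n` -/
lemma not_dvd_lin {l : ℕ} (hl : l.Prime) {x y : ℤ} (h : gcd x y = 1) (n : ℕ) {K S : ℤ}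
    (hK : (l : ℤ) ∣ K → (l : ℤ) ∣ x ^ n * y ^ n)
    (hS : (l : ℤ) ∣ S → ((l : ℤ) ∣ x ^ n ↔ (l : ℤ) ∣ y ^ n)) (hd : (l : ℤ) ∣ K) : ¬ (l : ℤ) ∣ S := by
  intro hs
  have hprime : Prime (l : ℤ) := Nat.prime_iff_prime_int.mp hl
  rcases hprime.dvd_or_dvd (hK hd) with h1 | h1
  · exact not_dvd_both hl h n ⟨h1, (hS hs).mp h1⟩
  · exact not_dvd_both hl h n ⟨(hS hs).mpr h1, h1⟩

/-- the three centres of the Frey curve are `Nice` at every place -/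
theorem nice_frey (P : FreyPackage) {l : ℕ} (hl : l.Prime) (A : ValuationSubring Qb)
    (hA : A.LiesOverPrime l) :
    Nice A ((l : ℤ) ∣ P.a * P.b * P.c) 0
        (((-(P.a ^ P.p * P.b ^ P.p) : ℤ) : ℚ) / ((16 : ℤ) : ℚ)) ((P.b ^ P.p - P.a ^ P.p : ℤ) : ℚ) ∧
    Nice A ((l : ℤ) ∣ P.a * P.b * P.c) (((P.a ^ P.p : ℤ) : ℚ) / ((4 : ℤ) : ℚ))
        (((P.a ^ P.p * P.c ^ P.p : ℤ) : ℚ) / ((16 : ℤ) : ℚ)) ((P.a ^ P.p + P.c ^ P.p : ℤ) : ℚ) ∧
    Nice A ((l : ℤ) ∣ P.a * P.b * P.c) (((-(P.b ^ P.p) : ℤ) : ℚ) / ((4 : ℤ) : ℚ))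
        (((P.b ^ P.p * P.c ^ P.p : ℤ) : ℚ) / ((16 : ℤ) : ℚ))
        ((-(P.b ^ P.p + P.c ^ P.p) : ℤ) : ℚ) := by
  have hprime : Prime (l : ℤ) := Nat.prime_iff_prime_int.mp hl
  have hpow : ∀ z : ℤ, (l : ℤ) ∣ z ^ P.p → (l : ℤ) ∣ z := fun z h => hprime.dvd_of_dvd_pow h
  have hbadab : (l : ℤ) ∣ P.a ^ P.p * P.b ^ P.p → (l : ℤ) ∣ P.a * P.b * P.c := by
    intro h
    rcases hprime.dvd_or_dvd h with h | h
    · exact dvd_mul_of_dvd_left (dvd_mul_of_dvd_left (hpow _ h) _) _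
    · exact dvd_mul_of_dvd_left (dvd_mul_of_dvd_right (hpow _ h) _) _
  have hbadac : (l : ℤ) ∣ P.a ^ P.p * P.c ^ P.p → (l : ℤ) ∣ P.a * P.b * P.c := by
    intro h
    rcases hprime.dvd_or_dvd h with h | h
    · exact dvd_mul_of_dvd_left (dvd_mul_of_dvd_left (hpow _ h) _) _
    · exact dvd_mul_of_dvd_right (hpow _ h) _
  have hbadbc : (l : ℤ) ∣ P.b ^ P.p * P.c ^ P.p → (l : ℤ) ∣ P.a * P.b * P.c := by
    intro h
    rcases hprime.dvd_or_dvd h with h | h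
    · exact dvd_mul_of_dvd_left (dvd_mul_of_dvd_right (hpow _ h) _) _
    · exact dvd_mul_of_dvd_right (hpow _ h) _
  -- the three linear forms
  have hS0 : (l : ℤ) ∣ -(P.a ^ P.p * P.b ^ P.p) → ¬ (l : ℤ) ∣ P.b ^ P.p - P.a ^ P.p :=
    not_dvd_lin hl P.hgcdab P.p (fun h => (dvd_neg).mp h) (fun hs =>
      ⟨fun h => by simpa using dvd_add hs h, fun h => by simpa using dvd_sub h hs⟩)
  have hSA : (l : ℤ) ∣ P.a ^ P.p * P.c ^ P.p → ¬ (l : ℤ) ∣ P.a ^ P.p + P.c ^ P.p :=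
    not_dvd_lin hl P.hgcdac P.p (fun h => h) (fun hs =>
      ⟨fun h => by simpa using dvd_sub hs h, fun h => by simpa using dvd_sub hs h⟩)
  have hSB : (l : ℤ) ∣ P.b ^ P.p * P.c ^ P.p → ¬ (l : ℤ) ∣ -(P.b ^ P.p + P.c ^ P.p) :=
    not_dvd_lin hl P.hgcdbc P.p (fun h => h) (fun hs =>
      ⟨fun h => by simpa using dvd_sub ((dvd_neg).mp hs) h,
       fun h => by simpa using dvd_sub ((dvd_neg).mp hs) h⟩)
  by_cases h2 : (l : ℤ) ∣ 2
  · -- `ℓ = 2`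
    obtain ⟨m, hm⟩ := frey_32_dvd P
    have hmQ : ((P.b : ℚ) ^ P.p) = 32 * (m : ℚ) := by exact_mod_cast hm
    have h2b : (2 : ℤ) ∣ P.b := (ZMod.intCast_zmod_eq_zero_iff_dvd P.b 2).1 P.hb2
    have hlb : (l : ℤ) ∣ P.b ^ P.p := (h2.trans h2b).trans (dvd_pow_self _ P.hp0)
    have hbad : (l : ℤ) ∣ P.a * P.b * P.c := h2.trans P.two_dvd_abc
    have hla : ¬ (l : ℤ) ∣ P.a ^ P.p := fun h => not_dvd_both hl P.hgcdab P.p ⟨h, hlb⟩
    refine ⟨?_, ?_, ?_⟩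
    · have e0 : (0 : ℚ) = ((0 : ℤ) : ℚ) := by simp
      have e1 : ((-(P.a ^ P.p * P.b ^ P.p) : ℤ) : ℚ) / ((16 : ℤ) : ℚ) =
          ((-(P.a ^ P.p) * (2 * m) : ℤ) : ℚ) := by push_cast; rw [hmQ]; ring
      rw [e0, e1]
      exact nice_int A hl hA (dvd_mul_of_dvd_right (dvd_mul_of_dvd_left h2 _) _)
        (hS0 ((dvd_neg).mpr (dvd_mul_of_dvd_right hlb _))) hbad
    · left
      rw [map_div₀, map_div₀, val_algebraMap_int_eq_one A hl hA hla]
      have h4 : A.valuation (algebraMap ℚ Qb ((4 : ℤ) : ℚ)) < 1 :=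
        (val_algebraMap_int A hl hA _).2.mpr (h2.trans (by norm_num))
      have h40 : A.valuation (algebraMap ℚ Qb ((4 : ℤ) : ℚ)) ≠ 0 := by
        rw [Valuation.ne_zero_iff]; simp
      rw [one_div]
      exact (one_lt_inv₀ (zero_lt_iff.mpr h40)).mpr h4
    · have e0 : ((-(P.b ^ P.p) : ℤ) : ℚ) / ((4 : ℤ) : ℚ) = ((-(8 * m) : ℤ) : ℚ) := by
        push_cast; rw [hmQ]; ring
      have e1 : ((P.b ^ P.p * P.c ^ P.p : ℤ) : ℚ) / ((16 : ℤ) : ℚ) =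
          ((2 * m * P.c ^ P.p : ℤ) : ℚ) := by push_cast; rw [hmQ]; ring
      rw [e0, e1]
      exact nice_int A hl hA (dvd_mul_of_dvd_left (dvd_mul_of_dvd_left h2 _) _)
        (hSB (dvd_mul_of_dvd_left hlb _)) hbad
  · refine ⟨?_, ?_, ?_⟩
    · have e0 : (0 : ℚ) = ((0 : ℤ) : ℚ) / ((4 : ℤ) : ℚ) := by simp
      rw [e0]
      exact nice_odd A hl hA h2 (fun h => ⟨hS0 h, hbadab ((dvd_neg).mp h)⟩)
    · exact nice_odd A hl hA h2 (fun h => ⟨hSA h, hbadac h⟩)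
    · exact nice_odd A hl hA h2 (fun h => ⟨hSB h, hbadbc h⟩)

/-- **(TORIC) ⟹ False.**  A Galois-stable cyclic subgroup `⟨T₀⟩` of order `p ≥ 7` of the Frey curve
cannot be toric (= avoid the node) at one place above every bad prime `ℓ ≠ p`. -/
theorem key (P : FreyPackage) (hp : 7 ≤ P.p) {T0 : (P.freyCurve⁄Qb).Point}
    (hT0 : addOrderOf T0 = P.p) (hstab : ∀ σ : GQ, ∃ m : ℕ, σ • T0 = m • T0)
    (htor : ∀ l : ℕ, l.Prime → l ≠ P.p → (l : ℤ) ∣ P.a * P.b * P.c →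
      ∃ A : ValuationSubring Qb, A.LiesOverPrime l ∧ ∀ k ∈ Finset.Ico 1 P.p, Toric P A (k • T0)) :
    False := by
  have hT : P.p • T0 = 0 := by rw [← hT0]; exact addOrderOf_nsmul_eq_zero T0
  have h0 : T0 ≠ 0 := by
    rintro rfl
    rw [addOrderOf_zero] at hT0
    exact P.pp.one_lt.ne hT0
  obtain ⟨e, he, q, hq, hreal⟩ := Real.frey_real P hT0 hstab
  simp only [Real.fA, Real.fB] at he
  refine main P hp hT h0 (e := e) (by simpa using he) hq ?_ hreal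
  intro l hl hlp
  -- choose the place
  obtain ⟨A, hA, hA'⟩ : ∃ A : ValuationSubring Qb, A.LiesOverPrime l ∧
      ((l : ℤ) ∣ P.a * P.b * P.c → ∀ k ∈ Finset.Ico 1 P.p, Toric P A (k • T0)) := by
    by_cases hbad : (l : ℤ) ∣ P.a * P.b * P.c
    · obtain ⟨A, hA, h⟩ := htor l hl hlp hbad
      exact ⟨A, hA, fun _ => h⟩
    · obtain ⟨A, hA⟩ := exists_valuationSubring_liesOver l hl
      exact ⟨A, hA, fun h => absurd h hbad⟩
  refine ⟨A, hA, ?_⟩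
  rw [← hq]
  apply one_le_PiE
  intro k hk
  have hkT : P.p • (k • T0) = 0 := by rw [smul_comm, hT, nsmul_zero]
  have hk0 := nsmul_ne_zero_of_Ico P.pp hT h0 hk
  obtain ⟨n0, nA, nB⟩ := nice_frey P hl A hA
  rcases he with rfl | rfl | rfl
  · exact one_le_xi P hl hlp A hA hkT hk0 (fun h => hA' h k hk) (frey_centre0 P) n0
  · have e1 : (P.a : ℚ) ^ P.p / 4 = ((P.a ^ P.p : ℤ) : ℚ) / ((4 : ℤ) : ℚ) := by push_cast; ring
    rw [e1]
    exact one_le_xi P hl hlp A hA hkT hk0 (fun h => hA' h k hk) (frey_centreA P) nA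
  · have e1 : -(P.b : ℚ) ^ P.p / 4 = ((-(P.b ^ P.p) : ℤ) : ℚ) / ((4 : ℤ) : ℚ) := by
      push_cast; ring
    rw [e1]
    exact one_le_xi P hl hlp A hA hkT hk0 (fun h => hA' h k hk) (frey_centreB P) nB

/-- multiples of a toric point are toric -/
theorem Toric.nsmul {P : FreyPackage} {A : ValuationSubring Qb} {T : (P.freyCurve⁄Qb).Point}
    (h : Toric P A T) (k : ℕ) : Toric P A (k • T) :=
  fun e κ β hc he hκ hβ => inE0_nsmul A.valuation hc hκ hβ.le (h e κ β hc he hκ hβ) k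

/-- `key` with the toric hypothesis for the generator only. -/
theorem key' (P : FreyPackage) (hp : 7 ≤ P.p) {T0 : (P.freyCurve⁄Qb).Point}
    (hT0 : addOrderOf T0 = P.p) (hstab : ∀ σ : GQ, ∃ m : ℕ, σ • T0 = m • T0)
    (htor : ∀ l : ℕ, l.Prime → l ≠ P.p → (l : ℤ) ∣ P.a * P.b * P.c →
      ∃ A : ValuationSubring Qb, A.LiesOverPrime l ∧ Toric P A T0) : False :=
  key P hp hT0 hstab (fun l hl hlp hbad => by
    obtain ⟨A, hA, h⟩ := htor l hl hlp hbad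
    exact ⟨A, hA, fun k _ => h.nsmul k⟩)

end Fermat.Agent.S12.AtP
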